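import Mathlib

/-!
# S36 / R / DC / Dvr : step (5).   TASK S36/DC-Dvr     (Mathlib only)

`R` noetherian, `𝔐` a prime ideal which is locally principal (elementwise form) and contains a non-zero-divisor `w`.
Then `R_𝔐` is a DVR.

PROOF.  `L := Localization.AtPrime 𝔐`, noetherian local, `t := algebraMap R L θ`.
(a) `maximalIdeal L = span {t}`: an element of the maximal ideal is `f / s'` with `f ∈ 𝔐` (`IsLocalization.AtPrime.to_map_mem_maximal_iff`,
    `IsLocalization.mk'_surjective`), `s * f = θ * g`, `s` is a unit of `L`.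
(b) `algebraMap R L w` is a non-zero-divisor of `L` (`IsLocalization.map_nonZeroDivisors_le`/flatness) lying in `span {t}`, `L` nontrivial, so `t` is not
    nilpotent:  `t ^ n = 0 → (algebraMap w) ^ n = 0`.
(c) Krull: `⨅ n, maximalIdeal L ^ n = ⊥` (`Ideal.iInf_pow_eq_bot_of_isLocalRing`).  So each `x ≠ 0` is `u * t ^ n`, `u` a unit
    (largest `n` with `t ^ n ∣ x`; the cofactor is not in `span {t}`, so it is a unit).
(d) `NoZeroDivisors L`: `(u t ^ n)(u' t ^ m) = u u' t ^ (n + m) ≠ 0`.  So `IsDomain L`.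
(e) DVR: `IsDiscreteValuationRing.ofHasUnitMulPowIrreducibleFactorization`, or the `TFAE` in
    `Mathlib/RingTheory/DiscreteValuationRing/TFAE.lean` (`(maximalIdeal L).IsPrincipal`, `¬ IsField L` since `t ≠ 0` is a non-unit),
    or `IsLocalRing` + `IsPrincipalIdealRing` from (c).
-/

set_option autoImplicit false

namespace Fermat.Agent.S36.R.DC

open IsLocalRing

/-- (c) every nonzero element is a unit times a power of the generator. -/
theorem Dvr_exists_unit_mul_pow {L : Type*} [CommRing L] [IsNoetherianRing L] [IsLocalRing L] (t : L)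
    (ht : maximalIdeal L = Ideal.span {t}) {x : L} (hx : x ≠ 0) :
    ∃ (n : ℕ) (u : L), IsUnit u ∧ x = u * t ^ n := by
  classical
  have hK : (⨅ n : ℕ, maximalIdeal L ^ n) = ⊥ :=
    Ideal.iInf_pow_eq_bot_of_isLocalRing _ (Ideal.IsPrime.ne_top inferInstance)
  have hex : ∃ n : ℕ, x ∉ maximalIdeal L ^ n := by
    by_contra hcon
    simp only [not_exists, not_not] at hcon
    have : x ∈ (⨅ n : ℕ, maximalIdeal L ^ n) := by
      rw [Ideal.mem_iInf]; exact hcon
    rw [hK] at this
    exact hx this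
  have hn := Nat.find_spec hex
  have hmin := fun m (hm : m < Nat.find hex) => Nat.find_min hex hm
  set n := Nat.find hex with hndef
  cases hn0 : n with
  | zero =>
    rw [hn0] at hn
    exact absurd (by simp) hn
  | succ k =>
    have hk : x ∈ maximalIdeal L ^ k := by
      have := hmin k (by omega)
      simpa using this
    rw [ht, Ideal.span_singleton_pow, Ideal.mem_span_singleton] at hk
    obtain ⟨u, hu⟩ := hk
    refine ⟨k, u, ?_, by rw [hu]; ring⟩
    by_contra hnu
    have hum : u ∈ maximalIdeal L := (mem_maximalIdeal u).2 hnu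
    rw [ht, Ideal.mem_span_singleton] at hum
    obtain ⟨c, hc⟩ := hum
    apply hn
    rw [hn0, ht, Ideal.span_singleton_pow, Ideal.mem_span_singleton]
    exact ⟨c, by rw [hu, hc]; ring⟩

/-- noetherian local, principal maximal ideal with a non-nilpotent generator: DVR. -/
theorem Dvr_of_local {L : Type*} [CommRing L] [IsNoetherianRing L] [IsLocalRing L] (t : L)
    (ht : maximalIdeal L = Ideal.span {t}) (hnil : ∀ n : ℕ, t ^ n ≠ 0) :
    ∃ _ : IsDomain L, IsDiscreteValuationRing L := by
  have hnzd : NoZeroDivisors L := by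
    refine ⟨fun {x y} hxy => ?_⟩
    by_contra hcon
    rw [not_or] at hcon
    obtain ⟨n, u, hu, rfl⟩ := Dvr_exists_unit_mul_pow t ht hcon.1
    obtain ⟨m, v, hv, rfl⟩ := Dvr_exists_unit_mul_pow t ht hcon.2
    have h1 : (u * v) * t ^ (n + m) = 0 := by rw [← hxy]; ring
    exact hnil (n + m) (((hu.mul hv).mul_right_eq_zero).1 h1)
  have hdom : IsDomain L := NoZeroDivisors.to_isDomain L
  refine ⟨hdom, ?_⟩
  have ht0 : t ≠ 0 := by simpa using hnil 1
  have hprime : Prime t := by
    rw [← Ideal.span_singleton_prime ht0, ← ht]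
    infer_instance
  refine IsDiscreteValuationRing.ofHasUnitMulPowIrreducibleFactorization ⟨t, hprime.irreducible, ?_⟩
  intro x hx
  obtain ⟨n, u, hu, rfl⟩ := Dvr_exists_unit_mul_pow t ht hx
  obtain ⟨u, rfl⟩ := hu
  exact ⟨n, u, by ring⟩

theorem isDVR_of_generator {R : Type*} [CommRing R] [IsNoetherianRing R] (𝔐 : Ideal R) [𝔐.IsPrime]
    (θ : R) (hθ : θ ∈ 𝔐) (hgen : ∀ f ∈ 𝔐, ∃ s, s ∉ 𝔐 ∧ θ ∣ s * f)
    (w : R) (hw : w ∈ 𝔐) (hw' : w ∈ nonZeroDivisors R) :
    ∃ _ : IsDomain (Localization.AtPrime 𝔐), IsDiscreteValuationRing (Localization.AtPrime 𝔐) := by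
  set L := Localization.AtPrime 𝔐 with hL
  have hnoeth : IsNoetherianRing L := IsLocalization.isNoetherianRing 𝔐.primeCompl L inferInstance
  set t : L := algebraMap R L θ with htdef
  have hunit : ∀ s : R, s ∉ 𝔐 → IsUnit (algebraMap R L s) := fun s hs =>
    IsLocalization.map_units L (⟨s, hs⟩ : 𝔐.primeCompl)
  have ht : maximalIdeal L = Ideal.span {t} := by
    apply le_antisymm
    · intro x hx
      obtain ⟨f, s', rfl⟩ := IsLocalization.exists_mk'_eq 𝔐.primeCompl x
      have hspec : IsLocalization.mk' L f s' * algebraMap R L s' = algebraMap R L f :=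
        IsLocalization.mk'_spec L f s'
      have hf : f ∈ 𝔐 := by
        rw [← IsLocalization.AtPrime.to_map_mem_maximal_iff L 𝔐, ← hspec]
        exact Ideal.mul_mem_right _ _ hx
      obtain ⟨s, hs, g, hg⟩ := hgen f hf
      rw [Ideal.mem_span_singleton]
      have h1 : (algebraMap R L s * algebraMap R L s') * IsLocalization.mk' L f s'
          = t * algebraMap R L g := by
        have h2 : algebraMap R L s * algebraMap R L f = t * algebraMap R L g := by
          rw [htdef, ← map_mul, ← map_mul, hg]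
        rw [← h2, ← hspec]; ring
      exact (((hunit s hs).mul (hunit s' s'.2)).dvd_mul_left).1 ⟨_, h1⟩
    · rw [Ideal.span_singleton_le_iff_mem]
      exact (IsLocalization.AtPrime.to_map_mem_maximal_iff L 𝔐 θ).2 hθ
  refine Dvr_of_local t ht (fun n hn => ?_)
  have hwL : algebraMap R L w ∈ nonZeroDivisors L :=
    IsLocalization.map_nonZeroDivisors_le 𝔐.primeCompl L ⟨w, hw', rfl⟩
  have hwm : algebraMap R L w ∈ maximalIdeal L :=
    (IsLocalization.AtPrime.to_map_mem_maximal_iff L 𝔐 w).2 hw
  rw [ht, Ideal.mem_span_singleton] at hwm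
  obtain ⟨c, hc⟩ := hwm
  have h0 : (algebraMap R L w) ^ n = 0 := by rw [hc, mul_pow, hn, zero_mul]
  exact nonZeroDivisors.ne_zero (pow_mem hwL n) h0

end Fermat.Agent.S36.R.DC
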