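import Fermat.Agent.S36.R.DC.Max

/-!
# S36 / R / DC / Socle : the socle element of step (4).   TASK S36/DC-Socle

`𝔐` maximal in `B`, NOT locally generated by `ϖ`.  Then there is `c ∈ 𝔐`, `ϖ ∤ c`, `c * 𝔐 ⊆ ϖ B`.

PROOF.  Write `ϖ` for `algebraMap D B ϖ`.  `I := {f | ∃ s ∉ 𝔐, ϖ ∣ s * f}` is an ideal, `I ≤ 𝔐` (`ϖ ∈ 𝔐` prime), `I ≠ 𝔐` by `h`.
(a) there is `t ∉ 𝔐` lying in all the other maximal ideals (finitely many: `finite_maximalSpectrum'`; for each `𝔐' ≠ 𝔐` pick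
    `y ∈ 𝔐' \ 𝔐`, take the product; `Ideal.IsPrime.prod_mem_iff`/`Finset.prod_induction`).  For `f ∈ 𝔐`: `t * f ∈ rad B ϖ` (`mem_rad_iff`), so `ϖ ∣ t ^ m * f ^ m`,
    `f ^ m ∈ I`.  So `𝔐 ≤ I.radical`; `B` is noetherian (`isNoetherian_of_isNoetherianRing_of_finite D B`, `Module.Finite.of_basis b`), so `𝔐 ^ m ≤ I` for some `m`
    (`Ideal.exists_pow_le_of_le_radical_of_fg` / `Ideal.exists_radical_pow_le_of_fg`).
(b) take `m` minimal (`Nat.find`); `m ≠ 0` (`1 ∉ I`), `m ≠ 1` (`𝔐 ≰ I`); `m = m' + 2`; pick `c₀ ∈ 𝔐 ^ (m' + 1)`, `c₀ ∉ I`. `c₀ ∈ 𝔐`, `c₀ * 𝔐 ≤ I`.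
(c) `𝔐` is finitely generated: there is ONE `s ∉ 𝔐` with `ϖ ∣ s * c₀ * f` for all `f ∈ 𝔐` (product of the `s` for the generators;
    `Submodule.fg_iff_exists_fin_generating_family`/`Ideal.span` induction `Submodule.span_induction`).  `c := s * c₀`.  `ϖ ∤ c` because `c₀ ∉ I`.
-/

set_option autoImplicit false

namespace Fermat.Agent.S36.R.DC

variable {D B : Type*} [CommRing D] [IsDomain D] [IsDiscreteValuationRing D] [CommRing B] [Algebra D B]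
  {ι : Type*} [Fintype ι]

/-- the ideal of elements which are locally (at `𝔐`) divisible by `π`. -/
def Socle_I {B : Type*} [CommRing B] (𝔐 : Ideal B) [𝔐.IsPrime] (π : B) : Ideal B where
  carrier := {f | ∃ s, s ∉ 𝔐 ∧ π ∣ s * f}
  zero_mem' := ⟨1, fun h1 => (Ideal.IsPrime.ne_top ‹_›) ((Ideal.eq_top_iff_one _).2 h1), by simp⟩
  add_mem' := by
    rintro f f' ⟨s, hs, hf⟩ ⟨s', hs', hf'⟩
    refine ⟨s * s', fun hss => (Ideal.IsPrime.mem_or_mem ‹_› hss).elim hs hs', ?_⟩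
    have : s * s' * (f + f') = s' * (s * f) + s * (s' * f') := by ring
    rw [this]
    exact dvd_add (Dvd.dvd.mul_left hf _) (Dvd.dvd.mul_left hf' _)
  smul_mem' := by
    rintro c f ⟨s, hs, hf⟩
    refine ⟨s, hs, ?_⟩
    have : s * (c • f) = c * (s * f) := by rw [smul_eq_mul]; ring
    rw [this]
    exact Dvd.dvd.mul_left hf _

theorem Socle_mem_I {B : Type*} [CommRing B] {𝔐 : Ideal B} [𝔐.IsPrime] {π f : B} :
    f ∈ Socle_I 𝔐 π ↔ ∃ s, s ∉ 𝔐 ∧ π ∣ s * f := Iff.rfl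

/-- (a) an element outside `𝔐` lying in all the other maximal ideals. -/
theorem Socle_exists_sep {B : Type*} [CommRing B] [Finite (MaximalSpectrum B)]
    (𝔐 : Ideal B) (h𝔐 : 𝔐.IsMaximal) :
    ∃ t, t ∉ 𝔐 ∧ ∀ 𝔐' : Ideal B, 𝔐'.IsMaximal → 𝔐' ≠ 𝔐 → t ∈ 𝔐' := by
  classical
  have := Fintype.ofFinite (MaximalSpectrum B)
  have hy : ∀ P : MaximalSpectrum B, ∃ y : B, (P.asIdeal ≠ 𝔐 → y ∈ P.asIdeal) ∧ y ∉ 𝔐 := by
    intro P
    by_cases hP : P.asIdeal = 𝔐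
    · exact ⟨1, fun h => absurd hP h, fun h1 => h𝔐.ne_top ((Ideal.eq_top_iff_one _).2 h1)⟩
    · have hnle : ¬ P.asIdeal ≤ 𝔐 := fun hle => hP (P.isMaximal.eq_of_le h𝔐.ne_top hle)
      obtain ⟨y, hyP, hyM⟩ := SetLike.not_le_iff_exists.1 hnle
      exact ⟨y, fun _ => hyP, hyM⟩
  choose y hy1 hy2 using hy
  refine ⟨∏ P : MaximalSpectrum B, y P, ?_, ?_⟩
  · intro hmem
    have hpr := h𝔐.isPrime
    obtain ⟨P, _, hP⟩ := Ideal.IsPrime.prod_mem_iff.1 hmem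
    exact hy2 P hP
  · intro 𝔐' h' hne
    exact Ideal.mem_of_dvd _ (Finset.dvd_prod_of_mem y (Finset.mem_univ (⟨𝔐', h'⟩ : MaximalSpectrum B)))
      (hy1 ⟨𝔐', h'⟩ hne)

theorem exists_socle (b : Module.Basis ι D B) {ϖ : D} (hϖ : Irreducible ϖ)
    (𝔐 : Ideal B) (h𝔐 : 𝔐.IsMaximal)
    (h : ¬ ∀ f ∈ 𝔐, ∃ s, s ∉ 𝔐 ∧ algebraMap D B ϖ ∣ s * f) :
    ∃ c ∈ 𝔐, ¬ algebraMap D B ϖ ∣ c ∧ ∀ f ∈ 𝔐, algebraMap D B ϖ ∣ c * f := by
  classical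
  set π : B := algebraMap D B ϖ with hπ
  have hprime : 𝔐.IsPrime := h𝔐.isPrime
  have hπ𝔐 : π ∈ 𝔐 := algebraMap_mem_of_isMaximal b hϖ 𝔐 h𝔐
  have hfin : Finite (MaximalSpectrum B) := finite_maximalSpectrum' b
  have hmf : Module.Finite D B := Module.Finite.of_basis b
  have hnoeth : IsNoetherianRing B := IsNoetherianRing.of_finite D B
  obtain ⟨t, ht, htM⟩ := Socle_exists_sep 𝔐 h𝔐
  have hrad : 𝔐 ≤ (Socle_I 𝔐 π).radical := by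
    intro f hf
    have h1 : t * f ∈ rad B ϖ := by
      rw [mem_rad_iff b hϖ]
      intro 𝔐' h'
      by_cases he : 𝔐' = 𝔐
      · rw [he]; exact Ideal.mul_mem_left _ _ hf
      · exact Ideal.mul_mem_right _ _ (htM 𝔐' h' he)
    obtain ⟨m, hm⟩ := mem_rad_iff_pow.1 h1
    refine ⟨m, t ^ m, fun hmem => ht (hprime.mem_of_pow_mem m hmem), ?_⟩
    rwa [← mul_pow]
  have hex : ∃ m : ℕ, 𝔐 ^ m ≤ Socle_I 𝔐 π :=
    Ideal.exists_pow_le_of_le_radical_of_fg hrad (IsNoetherian.noetherian 𝔐)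
  have hm := Nat.find_spec hex
  have hmin := fun k (hk : k < Nat.find hex) => Nat.find_min hex hk
  set m := Nat.find hex with hmdef
  have hm0 : m ≠ 0 := by
    intro h0
    rw [h0, pow_zero, Ideal.one_eq_top] at hm
    obtain ⟨s, hs, hd⟩ := hm (Submodule.mem_top : (1 : B) ∈ ⊤)
    rw [mul_one] at hd
    exact hs (Ideal.mem_of_dvd _ hd hπ𝔐)
  have hm1 : m ≠ 1 := by
    intro h1
    rw [h1, pow_one] at hm
    exact h (fun f hf => hm hf)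
  obtain ⟨m', hm'⟩ : ∃ m', m = m' + 2 := ⟨m - 2, by omega⟩
  have hnle : ¬ 𝔐 ^ (m' + 1) ≤ Socle_I 𝔐 π := hmin (m' + 1) (by omega)
  obtain ⟨c₀, hc₀, hc₀I⟩ := SetLike.not_le_iff_exists.1 hnle
  have hc₀𝔐 : c₀ ∈ 𝔐 := Ideal.pow_le_self (Nat.succ_ne_zero m') hc₀
  have hmul : ∀ f ∈ 𝔐, c₀ * f ∈ Socle_I 𝔐 π := by
    intro f hf
    apply hm
    rw [hm', pow_succ]
    exact Ideal.mul_mem_mul hc₀ hf
  -- (c)
  obtain ⟨G, hG⟩ : 𝔐.FG := IsNoetherian.noetherian 𝔐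
  have hs : ∀ g : B, ∃ s, s ∉ 𝔐 ∧ (g ∈ G → π ∣ s * (c₀ * g)) := by
    intro g
    by_cases hg : g ∈ G
    · obtain ⟨s, hs, hd⟩ := hmul g (hG ▸ Submodule.subset_span hg)
      exact ⟨s, hs, fun _ => hd⟩
    · exact ⟨1, fun h1 => h𝔐.ne_top ((Ideal.eq_top_iff_one _).2 h1), fun h' => absurd h' hg⟩
  choose s hs1 hs2 using hs
  set S : B := ∏ g ∈ G, s g with hS
  have hS𝔐 : S ∉ 𝔐 := by
    intro hmem
    obtain ⟨g, _, hg⟩ := Ideal.IsPrime.prod_mem_iff.1 hmem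
    exact hs1 g hg
  refine ⟨S * c₀, Ideal.mul_mem_left _ _ hc₀𝔐, fun hd => hc₀I ⟨S, hS𝔐, hd⟩, ?_⟩
  intro f hf
  rw [← hG] at hf
  induction hf using Submodule.span_induction with
  | mem g hg =>
    obtain ⟨r, hr⟩ := Finset.dvd_prod_of_mem s hg
    have : S * c₀ * g = r * (s g * (c₀ * g)) := by rw [hS, hr]; ring
    rw [this]
    exact Dvd.dvd.mul_left (hs2 g hg) _
  | zero => simp
  | add x y _ _ hx hy => rw [mul_add]; exact dvd_add hx hy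
  | smul a x _ hx =>
    have : S * c₀ * (a • x) = a * (S * c₀ * x) := by rw [smul_eq_mul]; ring
    rw [this]
    exact Dvd.dvd.mul_left hx _

end Fermat.Agent.S36.R.DC
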