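import Mathlib

/-!
# S36 / R / DC / Adapted : adapted bases.   TASK S36/DC-Adapted     (Mathlib only)

`D` a PID, `ϖ` prime, `M` free with a finite basis, `J ≤ M` a submodule containing `ϖ M`.  Then there is a basis `v` of `M`
(same index type) and a predicate `p` with  `x ∈ J ↔ ∀ j, ¬ p j → ϖ ∣ v.repr x j`
(so `J = ⨁_{p j} D v_j ⊕ ⨁_{¬ p j} ϖ D v_j`).

PROOF.  `Submodule.smithNormalForm b J : Σ n, Module.Basis.SmithNormalForm J ι n` = `⟨n, bM, bN, f, a, snf⟩` with
`(bN i : M) = a i • bM (f i)`.  `v := bM`.  From `ϖ • bM j ∈ J`: `j ∈ range f` (`SmithNormalForm.repr_eq_zero_of_notMem_range`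
or so: elements of `J` have zero coordinates outside `range f`) and, for `j = f i`, `a i ∣ ϖ`
(`SmithNormalForm.repr_apply_embedding_eq_repr_smul`: `bM.repr x (f i) = bN.repr x i • a i` for `x : J`).
So `a i` is a unit or associated to `ϖ`.  `p j := ∃ i, f i = j ∧ IsUnit (a i)`.
`x ∈ J ↔ ∀ i, a i ∣ bM.repr x (f i)`  (⇐: `x = ∑ j, repr x j • bM j = ∑ i, c i • (a i • bM (f i))`, `f` is a bijection).
-/

set_option autoImplicit false

namespace Fermat.Agent.S36.R.DC

theorem exists_adapted {D M : Type*} [CommRing D] [IsDomain D] [IsPrincipalIdealRing D]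
    [AddCommGroup M] [Module D M] {ι : Type*} [Finite ι] (b : Module.Basis ι D M) {ϖ : D} (hϖ : Prime ϖ)
    (J : Submodule D M) (hJ : ∀ x : M, ϖ • x ∈ J) :
    ∃ (v : Module.Basis ι D M) (p : ι → Prop), ∀ x, x ∈ J ↔ ∀ j, ¬ p j → ϖ ∣ v.repr x j := by
  classical
  cases nonempty_fintype ι
  obtain ⟨n, snf⟩ := Submodule.smithNormalForm b J
  -- coordinates of elements of `J`
  have hF3 : ∀ x ∈ J, ∀ i, snf.a i ∣ snf.bM.repr x (snf.f i) := by
    intro x hx i
    have h := snf.repr_apply_embedding_eq_repr_smul ⟨x, hx⟩ (i := i)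
    rw [map_smul, Finsupp.smul_apply, smul_eq_mul] at h
    exact ⟨_, h⟩
  have hF1 : ∀ j, j ∈ Set.range snf.f := by
    intro j
    by_contra hj
    have h := snf.repr_eq_zero_of_notMem_range ⟨ϖ • snf.bM j, hJ _⟩ hj
    simp only [map_smul, Module.Basis.repr_self, Finsupp.smul_single, smul_eq_mul, mul_one,
      Finsupp.single_eq_same] at h
    exact hϖ.ne_zero h
  have hF2 : ∀ i, snf.a i ∣ ϖ := by
    intro i
    have h := hF3 (ϖ • snf.bM (snf.f i)) (hJ _) i
    simpa using h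
  have hbij : Function.Bijective snf.f := ⟨snf.f.injective, hF1⟩
  have hF4 : ∀ x, (∀ i, snf.a i ∣ snf.bM.repr x (snf.f i)) → x ∈ J := by
    intro x hx
    choose c hc using hx
    have h1 : x = ∑ i, c i • (snf.bN i : M) := by
      conv_lhs => rw [← snf.bM.sum_repr x]
      rw [← (Equiv.ofBijective _ hbij).sum_comp]
      refine Finset.sum_congr rfl fun i _ => ?_
      rw [Equiv.ofBijective_apply, hc i, snf.snf i, smul_smul, mul_comm]
    rw [h1]
    exact J.sum_mem fun i _ => J.smul_mem _ (snf.bN i).2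
  refine ⟨snf.bM, fun j => ∃ i, snf.f i = j ∧ IsUnit (snf.a i), fun x => ⟨fun hx j hj => ?_,
    fun hx => hF4 x fun i => ?_⟩⟩
  · obtain ⟨i, rfl⟩ := hF1 j
    have hnu : ¬ IsUnit (snf.a i) := fun hu => hj ⟨i, rfl, hu⟩
    obtain ⟨c, hc⟩ := hF2 i
    have hcu : IsUnit c := (hϖ.irreducible.isUnit_or_isUnit hc).resolve_left hnu
    have h2 : ϖ ∣ snf.a i := by
      obtain ⟨u, rfl⟩ := hcu
      exact ⟨((u⁻¹ : Dˣ) : D), by rw [hc, mul_assoc, Units.mul_inv, mul_one]⟩
    exact h2.trans (hF3 x hx i)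
  · by_cases hu : IsUnit (snf.a i)
    · exact hu.dvd
    · refine (hF2 i).trans (hx _ ?_)
      rintro ⟨i', hi', hu'⟩
      rw [snf.f.injective hi'] at hu'
      exact hu hu'

end Fermat.Agent.S36.R.DC
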