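import Fermat.Agent.S36.R.DC.Max

/-!
# S36 / R / DC / Count : `dim_k B / rad = μ`.   TASK S36/DC-Count

`(v, p)` an adapted basis of `rad B ϖ` (see `Adapted.lean`).  Then `#{j // ¬ p j} = Nat.card (MaximalSpectrum B)`.

PROOF.  `k := IsLocalRing.ResidueField D`, `res := algebraMap D k` (surjective, kernel `(ϖ)`).
* `φ : B →ₗ[D] ({j // ¬ p j} → k)`, `x ↦ fun j => res (v.repr x j)` is surjective with kernel `rad B ϖ` (by `hv`).
* `ψ : B →ₗ[D] (MaximalSpectrum B → k)`, `x ↦ fun 𝔐 => χ 𝔐 x` (`χ 𝔐` from `exists_algHom`) has kernel `rad B ϖ` (`mem_rad_iff`)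
  and is surjective (Chinese remainder theorem: the maximal ideals are pairwise coprime and finitely many:
  `Ideal.exists_forall_sub_mem_ideal` / `Ideal.quotientInfRingEquivPiQuotient`; each `χ 𝔐` is surjective since `res` is).
* So `({j // ¬ p j} → k) ≃ₗ[D] (MaximalSpectrum B → k)` (`LinearMap.quotKerEquivOfSurjective` twice, `Submodule.quotEquivOfEq`),
  upgrade to `k`-linear by `LinearEquiv.extendScalarsOfSurjective`, and compare `Module.finrank k` (`Module.finrank_fintype_fun_eq_card`).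
-/

set_option autoImplicit false

namespace Fermat.Agent.S36.R.DC

variable {D B : Type*} [CommRing D] [IsDomain D] [IsDiscreteValuationRing D]
  [IsAlgClosed (IsLocalRing.ResidueField D)] [CommRing B] [Algebra D B]
  {ι : Type*} [Fintype ι]

theorem card_not_eq (v : Module.Basis ι D B) {ϖ : D} (hϖ : Irreducible ϖ) (p : ι → Prop) [DecidablePred p]
    (hv : ∀ x, x ∈ rad B ϖ ↔ ∀ j, ¬ p j → ϖ ∣ v.repr x j) :
    Fintype.card {j // ¬ p j} = Nat.card (MaximalSpectrum B) := by
  classical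
  have hfin : Finite (MaximalSpectrum B) := finite_maximalSpectrum' v
  have : Fintype (MaximalSpectrum B) := Fintype.ofFinite _
  have hres : Function.Surjective (algebraMap D (IsLocalRing.ResidueField D)) :=
    IsLocalRing.residue_surjective
  have hker : ∀ d : D, algebraMap D (IsLocalRing.ResidueField D) d = 0 ↔ ϖ ∣ d := by
    intro d
    rw [IsLocalRing.ResidueField.algebraMap_eq, IsLocalRing.residue_eq_zero_iff,
      hϖ.maximalIdeal_eq, Ideal.mem_span_singleton]
  -- the first map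
  let φ : B →ₗ[D] ({j // ¬ p j} → IsLocalRing.ResidueField D) :=
    LinearMap.pi (fun j => (Algebra.linearMap D (IsLocalRing.ResidueField D)).comp
      ((Finsupp.lapply j.1).comp v.repr.toLinearMap))
  have hφ_apply : ∀ x j, φ x j = algebraMap D (IsLocalRing.ResidueField D) (v.repr x j.1) :=
    fun _ _ => rfl
  have hφ_surj : Function.Surjective φ := by
    intro y
    choose d hd using fun j => hres (y j)
    refine ⟨v.equivFun.symm (fun i => if h : ¬ p i then d ⟨i, h⟩ else 0), ?_⟩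
    funext j
    rw [hφ_apply, ← Module.Basis.equivFun_apply, LinearEquiv.apply_symm_apply, dif_pos j.2]
    exact hd j
  have hφ_ker : LinearMap.ker φ = (rad B ϖ).restrictScalars D := by
    ext x
    rw [LinearMap.mem_ker, Submodule.restrictScalars_mem, hv]
    constructor
    · intro h j hj
      have := congrFun h ⟨j, hj⟩
      rw [hφ_apply] at this
      exact (hker _).1 this
    · intro h
      funext j
      rw [hφ_apply]
      exact (hker _).2 (h j.1 j.2)
  -- the second map
  choose χ hχ using fun 𝔐 : MaximalSpectrum B => exists_algHom v 𝔐.asIdeal 𝔐.isMaximal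
  let ψ : B →ₗ[D] (MaximalSpectrum B → IsLocalRing.ResidueField D) :=
    LinearMap.pi (fun 𝔐 => (χ 𝔐).toLinearMap)
  have hψ_apply : ∀ x 𝔐, ψ x 𝔐 = χ 𝔐 x := fun _ _ => rfl
  have hmem : ∀ (𝔐 : MaximalSpectrum B) (x : B), χ 𝔐 x = 0 ↔ x ∈ 𝔐.asIdeal := by
    intro 𝔐 x
    rw [← hχ 𝔐, RingHom.mem_ker]
  have hψ_surj : Function.Surjective ψ := by
    intro y
    choose d hd using fun 𝔐 => hres (y 𝔐)
    have hcop : Pairwise (Function.onFun IsCoprime fun 𝔐 : MaximalSpectrum B => 𝔐.asIdeal) := by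
      intro 𝔐 𝔐' hne
      rw [Function.onFun, Ideal.isCoprime_iff_sup_eq]
      exact Ideal.IsMaximal.coprime_of_ne 𝔐.isMaximal 𝔐'.isMaximal
        (fun h => hne (MaximalSpectrum.ext h))
    obtain ⟨r, hr⟩ := Ideal.exists_forall_sub_mem_ideal hcop (fun 𝔐 => algebraMap D B (d 𝔐))
    refine ⟨r, ?_⟩
    funext 𝔐
    have h1 := (hmem 𝔐 _).2 (hr 𝔐)
    rw [map_sub, sub_eq_zero, AlgHom.commutes] at h1
    rw [hψ_apply, h1]
    exact hd 𝔐
  have hψ_ker : LinearMap.ker ψ = (rad B ϖ).restrictScalars D := by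
    ext x
    rw [LinearMap.mem_ker, Submodule.restrictScalars_mem, mem_rad_iff v hϖ]
    constructor
    · intro h 𝔐 h𝔐
      have := congrFun h ⟨𝔐, h𝔐⟩
      rw [hψ_apply] at this
      exact (hmem ⟨𝔐, h𝔐⟩ x).1 this
    · intro h
      funext 𝔐
      rw [hψ_apply]
      exact (hmem 𝔐 x).2 (h 𝔐.asIdeal 𝔐.isMaximal)
  let e : ({j // ¬ p j} → IsLocalRing.ResidueField D) ≃ₗ[D]
      (MaximalSpectrum B → IsLocalRing.ResidueField D) :=
    (φ.quotKerEquivOfSurjective hφ_surj).symm ≪≫ₗ
      (Submodule.quotEquivOfEq _ _ (hφ_ker.trans hψ_ker.symm)) ≪≫ₗ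
      ψ.quotKerEquivOfSurjective hψ_surj
  have h1 := (e.extendScalarsOfSurjective hres).finrank_eq
  rw [Module.finrank_fintype_fun_eq_card, Module.finrank_fintype_fun_eq_card] at h1
  rw [h1, Nat.card_eq_fintype_card]

end Fermat.Agent.S36.R.DC
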