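import Mathlib

/-!
# S36 / R / DC / Defs : `rad B ϖ` = the radical of `ϖ B` (= Jacobson radical of `B`, see `Max.lean`).
-/

set_option autoImplicit false

namespace Fermat.Agent.S36.R.DC

/-- the radical of the ideal `ϖ B`. -/
def rad {D : Type*} (B : Type*) [CommRing D] [CommRing B] [Algebra D B] (ϖ : D) : Ideal B :=
  (Ideal.span {algebraMap D B ϖ}).radical

theorem mem_rad_iff_pow {D B : Type*} [CommRing D] [CommRing B] [Algebra D B] {ϖ : D} {f : B} :
    f ∈ rad B ϖ ↔ ∃ m : ℕ, algebraMap D B ϖ ∣ f ^ m := by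
  simp only [rad, Ideal.mem_radical_iff, Ideal.mem_span_singleton]

end Fermat.Agent.S36.R.DC
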