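import Mathlib

/-!
# S36 / R / DC / Gram : two determinant lemmas.   TASKS S36/DC-GramA, S36/DC-GramB     (Mathlib only)

`D` a domain, `ϖ` prime, `G` a square matrix, `p` a predicate on the indices.

* `pow_dvd_det` : rows `i` with `p i` divisible by `ϖ` ⟹ `ϖ ^ #{p} ∣ det G`.
  PROOF: choose `H` with `G i j = (if p i then ϖ else 1) * H i j`; `Matrix.det_mul_column` (or `det_mul_row`, check which one
  scales rows) : `det G = (∏ i, if p i then ϖ else 1) * det H`; `Finset.prod_ite`/`Finset.prod_pow_boole`, `Fintype.card_subtype`.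
* `pow_succ_dvd_det` : moreover the columns `j` with `p j` are divisible by `ϖ`, and there is a vector `a`, not `≡ 0 mod ϖ`,
  `a i ≡ 0` for `¬ p i`, with `∑ i, a i * G i j ≡ 0 mod ϖ ^ 2` for all `j` with `p j`.  Then `ϖ ^ (#{p} + 1) ∣ det G`.
  PROOF: with `H` as above it is enough to show `ϖ ∣ det H`, i.e. `det (H.map res) = 0` in the domain `D ⧸ span {ϖ}`
  (`RingHom.map_det`).  `Hb := H.map res` satisfies `Hb i j = 0` for `¬ p i`, `p j`: `Matrix.twoBlockTriangular_det` (or `'`) :
  `det Hb = det (toSquareBlockProp Hb p) * det (toSquareBlockProp Hb (¬ p ·))`.  The first factor is `0` by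
  `Matrix.exists_vecMul_eq_zero_iff` with the vector `i ↦ res (a i)` (`i : {i // p i}`), which is nonzero; for `p j`:
  `ϖ ^ 2 ∣ ∑ i, a i * G i j = ϖ * ∑_{p i} a i * H i j + ∑_{¬ p i} a i * G i j` and the last sum is divisible by `ϖ ^ 2`
  (`ϖ ∣ a i`, `ϖ ∣ G i j`), so `ϖ ∣ ∑_{p i} a i * H i j`.
-/

set_option autoImplicit false

namespace Fermat.Agent.S36.R.DC

variable {D : Type*} [CommRing D] [IsDomain D] {ι : Type*} [Fintype ι] [DecidableEq ι]

omit [IsDomain D] in
/-- the auxiliary matrix `H`: divide the rows `i` with `p i` by `ϖ`. -/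
theorem exists_rowDiv {ϖ : D} (G : Matrix ι ι D) (p : ι → Prop) [DecidablePred p]
    (h1 : ∀ i j, p i → ϖ ∣ G i j) :
    ∃ H : Matrix ι ι D, (∀ i j, G i j = (if p i then ϖ else 1) * H i j) ∧
      G.det = ϖ ^ Fintype.card {i // p i} * H.det := by
  have hex : ∀ i j, ∃ h : D, G i j = (if p i then ϖ else 1) * h := by
    intro i j
    by_cases hi : p i
    · obtain ⟨c, hc⟩ := h1 i j hi
      exact ⟨c, by rw [if_pos hi, hc]⟩
    · exact ⟨G i j, by rw [if_neg hi, one_mul]⟩
  choose H hH using hex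
  refine ⟨Matrix.of H, hH, ?_⟩
  have h2 : G = Matrix.of fun i j => (if p i then ϖ else 1) * (Matrix.of H) i j := by
    ext i j
    exact hH i j
  have h3 : (∏ i : ι, if p i then ϖ else 1) = ϖ ^ Fintype.card {i // p i} := by
    rw [Finset.prod_ite, Finset.prod_const_one, mul_one, Finset.prod_const, Fintype.card_subtype]
  conv_lhs => rw [h2]
  rw [Matrix.det_mul_column, h3]

theorem pow_dvd_det {ϖ : D} (G : Matrix ι ι D) (p : ι → Prop) [DecidablePred p]
    (h1 : ∀ i j, p i → ϖ ∣ G i j) : ϖ ^ Fintype.card {i // p i} ∣ G.det := by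
  obtain ⟨H, -, hdet⟩ := exists_rowDiv G p h1
  exact ⟨H.det, hdet⟩

omit [IsDomain D] in
theorem GramB_exists_H {ϖ : D} (G : Matrix ι ι D) (p : ι → Prop) [DecidablePred p]
    (h1 : ∀ i j, p i → ϖ ∣ G i j) :
    ∃ H : Matrix ι ι D, (∀ i j, G i j = (if p i then ϖ else 1) * H i j) ∧
      G.det = ϖ ^ Fintype.card {i // p i} * H.det := by
  have hex : ∀ i j, ∃ x, G i j = (if p i then ϖ else 1) * x := by
    intro i j
    by_cases hp : p i
    · obtain ⟨x, hx⟩ := h1 i j hp
      exact ⟨x, by rw [if_pos hp, hx]⟩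
    · exact ⟨G i j, by rw [if_neg hp, one_mul]⟩
  choose H hH using hex
  refine ⟨Matrix.of H, hH, ?_⟩
  have e : G = Matrix.of fun i j => (if p i then ϖ else 1) * (Matrix.of H) i j := by
    ext i j
    exact hH i j
  conv_lhs => rw [e]
  rw [Matrix.det_mul_column, Finset.prod_ite, Finset.prod_const, Finset.prod_const_one, mul_one,
    Fintype.card_subtype]

theorem pow_succ_dvd_det {ϖ : D} (hϖ : Prime ϖ) (G : Matrix ι ι D) (p : ι → Prop) [DecidablePred p]
    (h1 : ∀ i j, p i → ϖ ∣ G i j) (h2 : ∀ i j, p j → ϖ ∣ G i j)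
    (a : ι → D) (ha0 : ∀ i, ¬ p i → ϖ ∣ a i) (ha1 : ∃ i, ¬ ϖ ∣ a i)
    (h3 : ∀ j, p j → ϖ ^ 2 ∣ ∑ i, a i * G i j) :
    ϖ ^ (Fintype.card {i // p i} + 1) ∣ G.det := by
  obtain ⟨H, hH, hdet⟩ := GramB_exists_H G p h1
  rw [hdet, pow_succ]
  refine mul_dvd_mul_left _ ?_
  have hprime : (Ideal.span {ϖ}).IsPrime := (Ideal.span_singleton_prime hϖ.ne_zero).2 hϖ
  have hres : ∀ x : D, Ideal.Quotient.mk (Ideal.span {ϖ}) x = 0 ↔ ϖ ∣ x := fun x => by
    rw [Ideal.Quotient.eq_zero_iff_mem, Ideal.mem_span_singleton]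
  rw [← hres, RingHom.map_det]
  set res := Ideal.Quotient.mk (Ideal.span {ϖ}) with hresdef
  rw [Matrix.twoBlockTriangular_det _ p]
  · have hz : (Matrix.toSquareBlockProp (res.mapMatrix H) p).det = 0 := by
      rw [← Matrix.exists_vecMul_eq_zero_iff]
      refine ⟨fun i => res (a i), ?_, ?_⟩
      · obtain ⟨i, hi⟩ := ha1
        have hpi : p i := by
          by_contra hp
          exact hi (ha0 i hp)
        intro h0
        have := congrFun h0 ⟨i, hpi⟩
        exact hi ((hres _).1 this)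
      · funext j
        obtain ⟨j, hj⟩ := j
        have hsum : (Matrix.vecMul (fun i : {i // p i} => res (a i))
            (Matrix.toSquareBlockProp (res.mapMatrix H) p)) ⟨j, hj⟩ =
            res (∑ i : {i // p i}, a i * H i j) := by
          rw [map_sum]
          simp only [Matrix.vecMul, dotProduct, Matrix.toSquareBlockProp_def, Matrix.of_apply,
            RingHom.mapMatrix_apply, Matrix.map_apply, map_mul]
        rw [hsum, Pi.zero_apply, hres]
        have h4 := h3 j hj
        rw [← Fintype.sum_subtype_add_sum_subtype p] at h4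
        have h5 : ϖ ^ 2 ∣ ∑ i : {i // ¬ p i}, a i * G i j := by
          refine Finset.dvd_sum fun i _ => ?_
          rw [pow_two]
          exact mul_dvd_mul (ha0 i i.2) (h2 i j hj)
        have h6 : ϖ ^ 2 ∣ ∑ i : {i // p i}, a i * G i j := (dvd_add_left h5).1 h4
        have h7 : ∑ i : {i // p i}, a i * G i j = ϖ * ∑ i : {i // p i}, a i * H i j := by
          rw [Finset.mul_sum]
          refine Finset.sum_congr rfl fun i _ => ?_
          rw [hH, if_pos i.2]
          ring
        rw [h7, pow_two] at h6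
        exact (mul_dvd_mul_iff_left hϖ.ne_zero).1 h6
    rw [hz, zero_mul]
  · intro i hi j hj
    rw [RingHom.mapMatrix_apply, Matrix.map_apply, hres]
    have := h2 i j hj
    rwa [hH, if_neg hi, one_mul] at this

end Fermat.Agent.S36.R.DC
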