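import Fermat.Agent.S36.R.DC.Trace
import Fermat.Agent.S36.R.DC.Adapted
import Fermat.Agent.S36.R.DC.Gram
import Fermat.Agent.S36.R.DC.Count

/-!
# S36 / R / DC / Key : (A) and (KEY), assembled from `Trace`, `Adapted`, `Gram`, `Count`.
-/

set_option autoImplicit false

namespace Fermat.Agent.S36.R.DC

variable {D B : Type*} [CommRing D] [IsDomain D] [IsDiscreteValuationRing D]
  [CommRing B] [Algebra D B] {ι : Type*} [Fintype ι] [DecidableEq ι]

theorem discr_dvd_discr' (v b : Module.Basis ι D B) : Algebra.discr D v ∣ Algebra.discr D b := by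
  have h := Algebra.discr_of_matrix_vecMul (A := D) (⇑v) (v.toMatrix b)
  rw [Module.Basis.toMatrix_map_vecMul] at h
  rw [h]
  exact Dvd.intro_left _ rfl

theorem exists_adapted_rad (b : Module.Basis ι D B) {ϖ : D} (hϖ : Irreducible ϖ) :
    ∃ (v : Module.Basis ι D B) (p : ι → Prop),
      ∀ x, x ∈ rad B ϖ ↔ ∀ j, ¬ p j → ϖ ∣ v.repr x j := by
  obtain ⟨v, p, hv⟩ := exists_adapted b hϖ.prime ((rad B ϖ).restrictScalars D) (by
    intro x
    rw [Submodule.restrictScalars_mem, Algebra.smul_def]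
    exact Ideal.mul_mem_right _ _ (Ideal.le_radical (Ideal.mem_span_singleton_self _)))
  exact ⟨v, p, fun x => by rw [← hv x, Submodule.restrictScalars_mem]⟩

theorem basis_mem_rad {ϖ : D} (v : Module.Basis ι D B) (p : ι → Prop)
    (hv : ∀ x, x ∈ rad B ϖ ↔ ∀ j, ¬ p j → ϖ ∣ v.repr x j) {i : ι} (hi : p i) : v i ∈ rad B ϖ := by
  rw [hv]
  intro j hj
  have hij : i ≠ j := fun h => hj (h ▸ hi)
  rw [Module.Basis.repr_self, Finsupp.single_eq_of_ne' hij]
  exact dvd_zero _

theorem card_eq_sub [IsAlgClosed (IsLocalRing.ResidueField D)] {ϖ : D} (hϖ : Irreducible ϖ)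
    (v : Module.Basis ι D B) (p : ι → Prop) [DecidablePred p]
    (hv : ∀ x, x ∈ rad B ϖ ↔ ∀ j, ¬ p j → ϖ ∣ v.repr x j) :
    Fintype.card {i // p i} = Fintype.card ι - Nat.card (MaximalSpectrum B) := by
  have h1 := card_not_eq v hϖ p hv
  have h2 := Fintype.card_subtype_compl p
  have h3 := Fintype.card_subtype_le p
  omega

/-- **(A)** -/
theorem pow_dvd_discr' [IsAlgClosed (IsLocalRing.ResidueField D)] (b : Module.Basis ι D B) {ϖ : D}
    (hϖ : Irreducible ϖ) :
    ϖ ^ (Fintype.card ι - Nat.card (MaximalSpectrum B)) ∣ Algebra.discr D b := by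
  classical
  obtain ⟨v, p, hv⟩ := exists_adapted_rad b hϖ
  refine dvd_trans ?_ (discr_dvd_discr' v b)
  rw [← card_eq_sub hϖ v p hv, Algebra.discr_def]
  refine pow_dvd_det _ p ?_
  intro i j hi
  rw [Algebra.traceMatrix_apply, Algebra.traceForm_apply]
  exact dvd_trace_of_mem_rad v hϖ.prime (Ideal.mul_mem_right _ _ (basis_mem_rad v p hv hi))

/-- **(KEY)** -/
theorem key [IsAlgClosed (IsLocalRing.ResidueField D)] (b : Module.Basis ι D B) {ϖ : D}
    (hϖ : Irreducible ϖ) (c : B) (hc : c ∈ rad B ϖ) (hc' : ¬ algebraMap D B ϖ ∣ c)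
    (h : ∀ g ∈ rad B ϖ, ϖ ^ 2 ∣ Algebra.trace D B (c * g)) :
    ϖ ^ (Fintype.card ι - Nat.card (MaximalSpectrum B) + 1) ∣ Algebra.discr D b := by
  classical
  obtain ⟨v, p, hv⟩ := exists_adapted_rad b hϖ
  refine dvd_trans ?_ (discr_dvd_discr' v b)
  rw [← card_eq_sub hϖ v p hv, Algebra.discr_def]
  refine pow_succ_dvd_det hϖ.prime _ p ?_ ?_ (fun i => v.repr c i) ?_ ?_ ?_
  · intro i j hi
    rw [Algebra.traceMatrix_apply, Algebra.traceForm_apply]
    exact dvd_trace_of_mem_rad v hϖ.prime (Ideal.mul_mem_right _ _ (basis_mem_rad v p hv hi))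
  · intro i j hj
    rw [Algebra.traceMatrix_apply, Algebra.traceForm_apply]
    exact dvd_trace_of_mem_rad v hϖ.prime (Ideal.mul_mem_left _ _ (basis_mem_rad v p hv hj))
  · exact (hv c).1 hc
  · by_contra hcon
    push Not at hcon
    apply hc'
    choose a ha using hcon
    refine ⟨∑ i, a i • v i, ?_⟩
    conv_lhs => rw [← v.sum_repr c]
    rw [Finset.mul_sum]
    refine Finset.sum_congr rfl fun i _ => ?_
    rw [ha i, mul_smul, Algebra.smul_def]
  · intro j hj
    have h1 := h (v j) (basis_mem_rad v p hv hj)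
    have h2 : Algebra.trace D B (c * v j) = ∑ i, v.repr c i * Algebra.traceMatrix D v i j := by
      conv_lhs => rw [← v.sum_repr c]
      rw [Finset.sum_mul, map_sum]
      refine Finset.sum_congr rfl fun i _ => ?_
      rw [Algebra.traceMatrix_apply, Algebra.traceForm_apply, smul_mul_assoc, map_smul, smul_eq_mul]
    rwa [h2] at h1

end Fermat.Agent.S36.R.DC
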