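import Fermat.Agent.S36.R.DC.Defs

/-!
# S36 / R / DC / Max : the maximal ideals of `B`.   TASKS S36/DC-MaxA (first three), S36/DC-MaxB (`exists_algHom`)

`D` a DVR with uniformiser `ϖ`, `B` a finite free `D`-algebra.

* `algebraMap_mem_of_isMaximal` : `ϖ ∈ 𝔐` for every maximal ideal `𝔐` of `B`.
  (`B` is integral over `D` (`Algebra.IsIntegral.of_finite`), so `𝔐.comap (algebraMap D B)` is maximal
  (`Ideal.isMaximal_comap_of_isIntegral_of_isMaximal`), hence `= maximalIdeal D ∋ ϖ` (`IsLocalRing.eq_maximalIdeal`,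
  `Irreducible.maximalIdeal_eq`).)
* `finite_maximalSpectrum` : `B ⧸ span {ϖ}` is a finite module over `D`, killed by `ϖ`, so it is artinian as a `D`-module
  (finite length: e.g. `IsArtinianRing (D ⧸ span {ϖ})` is a field; or `Module.Finite` over the field
  `D ⧸ span {ϖ}` via `Ideal.Quotient.algebraQuotientMapQuotient`-type instances / `isArtinian_of_tower`), so it is an artinian
  ring, `Finite (MaximalSpectrum (B ⧸ _))` (instance for artinian rings, `IsArtinianRing.instFiniteMaximalSpectrum`-like / `PrimeSpectrum` finite),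
  and `𝔐 ↦ 𝔐.map (Quotient.mk _)` is injective on maximal ideals containing `ϖ` (`Ideal.comap_map_of_surjective`,
  or inject via `Ideal.map_isMaximal...`/`Ideal.comap`).   ALTERNATIVE: `B` is semilocal because it is finite over a local ring;
  search Mathlib for `Finite (MaximalSpectrum` first.
* `mem_rad_iff` : `f ∈ rad B ϖ ↔ ∀ 𝔐 maximal, f ∈ 𝔐`.  (⇒: `f ^ m ∈ (ϖ) ⊆ 𝔐`.  ⇐: in the artinian ring `B ⧸ (ϖ)` every prime is
  maximal (`Ideal.isMaximal_of_isPrime`-type instance for artinian rings), so the nilradical (`nilradical_eq_sInf`, or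
  `Ideal.radical_eq_sInf`) is the intersection of the maximal ideals.  With `Ideal.radical_eq_sInf (span {ϖ})`: it is enough
  that every prime `P ⊇ (ϖ)` of `B` is maximal: `B ⧸ P` is a domain, integral over the field `D ⧸ (ϖ)`; or:
  `P.comap (algebraMap D B)` is a prime containing `ϖ`, so it is the maximal ideal, and
  `Ideal.isMaximal_of_isIntegral_of_isMaximal_comap` gives `P` maximal.  No artinian ring needed for this one.)
* `exists_algHom` : (residue field algebraically closed) every maximal ideal is the kernel of a `D`-algebra hom `B → k`.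
  (`K := B ⧸ 𝔐` is a field; `𝔐.comap = maximalIdeal D`; get `Algebra k K` from `Ideal.Quotient.lift`/`IsLocalRing.ResidueField.lift`
  (local instance), `K` is integral over `k` (every element of `K` is integral over `D`, push the polynomial),
  `IsAlgClosed.algebraMap_bijective_of_isIntegral` : `k ≃ K`; `χ := (that equiv).symm ∘ Ideal.Quotient.mk 𝔐`.)
-/

set_option autoImplicit false

namespace Fermat.Agent.S36.R.DC

variable {D B : Type*} [CommRing D] [IsDomain D] [IsDiscreteValuationRing D] [CommRing B] [Algebra D B]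
  {ι : Type*} [Fintype ι]

theorem comap_eq_maximalIdeal (b : Module.Basis ι D B) (𝔐 : Ideal B) (h𝔐 : 𝔐.IsMaximal) :
    𝔐.comap (algebraMap D B) = IsLocalRing.maximalIdeal D := by
  have : Module.Finite D B := Module.Finite.of_basis b
  have : Algebra.IsIntegral D B := Algebra.IsIntegral.of_finite D B
  exact IsLocalRing.eq_maximalIdeal (Ideal.isMaximal_comap_of_isIntegral_of_isMaximal 𝔐)

theorem algebraMap_mem_of_isMaximal (b : Module.Basis ι D B) {ϖ : D} (hϖ : Irreducible ϖ)
    (𝔐 : Ideal B) (h𝔐 : 𝔐.IsMaximal) : algebraMap D B ϖ ∈ 𝔐 := by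
  have h1 := comap_eq_maximalIdeal b 𝔐 h𝔐
  have h2 : ϖ ∈ IsLocalRing.maximalIdeal D := by
    rw [hϖ.maximalIdeal_eq]; exact Ideal.mem_span_singleton_self _
  rw [← h1] at h2
  exact h2

theorem finite_maximalSpectrum' (b : Module.Basis ι D B) : Finite (MaximalSpectrum B) := by
  have : Module.Finite D B := Module.Finite.of_basis b
  have hfin := Algebra.QuasiFinite.finite_primesOver (R := D) (S := B) (IsLocalRing.maximalIdeal D)
  have : Finite ((IsLocalRing.maximalIdeal D).primesOver B) := hfin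
  refine Finite.of_injective
    (fun 𝔐 : MaximalSpectrum B => (⟨𝔐.asIdeal, 𝔐.isMaximal.isPrime,
      ⟨(comap_eq_maximalIdeal b 𝔐.asIdeal 𝔐.isMaximal).symm⟩⟩ :
        (IsLocalRing.maximalIdeal D).primesOver B)) ?_
  intro x y hxy
  have := congrArg Subtype.val hxy
  exact MaximalSpectrum.ext this

theorem mem_rad_iff (b : Module.Basis ι D B) {ϖ : D} (hϖ : Irreducible ϖ) {f : B} :
    f ∈ rad B ϖ ↔ ∀ 𝔐 : Ideal B, 𝔐.IsMaximal → f ∈ 𝔐 := by
  have : Module.Finite D B := Module.Finite.of_basis b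
  have : Algebra.IsIntegral D B := Algebra.IsIntegral.of_finite D B
  constructor
  · intro hf 𝔐 h𝔐
    obtain ⟨m, hm⟩ := mem_rad_iff_pow.1 hf
    exact h𝔐.isPrime.mem_of_pow_mem m
      (Ideal.mem_of_dvd _ hm (algebraMap_mem_of_isMaximal b hϖ 𝔐 h𝔐))
  · intro h
    rw [rad, Ideal.radical_eq_sInf, Ideal.mem_sInf]
    rintro P ⟨hP, hPprime⟩
    apply h
    have hmem : ϖ ∈ P.comap (algebraMap D B) := hP (Ideal.mem_span_singleton_self _)
    have hprime : (P.comap (algebraMap D B)).IsPrime := Ideal.comap_isPrime _ _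
    have hmax : (P.comap (algebraMap D B)).IsMaximal := by
      have hle : IsLocalRing.maximalIdeal D ≤ P.comap (algebraMap D B) := by
        rw [hϖ.maximalIdeal_eq, Ideal.span_singleton_le_iff_mem]; exact hmem
      have := (IsLocalRing.maximalIdeal.isMaximal D).eq_of_le hprime.ne_top hle
      rw [← this]; infer_instance
    exact Ideal.isMaximal_of_isIntegral_of_isMaximal_comap P hmax

theorem exists_algHom [IsAlgClosed (IsLocalRing.ResidueField D)] (b : Module.Basis ι D B)
    (𝔐 : Ideal B) (h𝔐 : 𝔐.IsMaximal) :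
    ∃ χ : B →ₐ[D] IsLocalRing.ResidueField D, RingHom.ker χ = 𝔐 := by
  have hfin : Module.Finite D B := Module.Finite.of_basis b
  have hint : Algebra.IsIntegral D B := Algebra.IsIntegral.of_finite D B
  have hcomap : 𝔐.comap (algebraMap D B) = IsLocalRing.maximalIdeal D :=
    IsLocalRing.eq_maximalIdeal (Ideal.isMaximal_comap_of_isIntegral_of_isMaximal 𝔐)
  have hlo : 𝔐.LiesOver (IsLocalRing.maximalIdeal D) := ⟨hcomap.symm⟩
  letI : Field (B ⧸ 𝔐) := Ideal.Quotient.field 𝔐
  letI : Algebra (IsLocalRing.ResidueField D) (B ⧸ 𝔐) :=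
    Ideal.Quotient.algebraOfLiesOver 𝔐 (IsLocalRing.maximalIdeal D)
  have hint' : Algebra.IsIntegral (IsLocalRing.ResidueField D) (B ⧸ 𝔐) :=
    Ideal.Quotient.algebra_isIntegral_of_liesOver 𝔐 (IsLocalRing.maximalIdeal D)
  have hbij : Function.Bijective (algebraMap (IsLocalRing.ResidueField D) (B ⧸ 𝔐)) :=
    IsAlgClosed.algebraMap_bijective_of_isIntegral
  let e : IsLocalRing.ResidueField D ≃+* (B ⧸ 𝔐) := RingEquiv.ofBijective _ hbij
  refine ⟨{ toRingHom := (e.symm : (B ⧸ 𝔐) →+* IsLocalRing.ResidueField D).comp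
              (Ideal.Quotient.mk 𝔐)
            commutes' := fun d => ?_ }, ?_⟩
  · change e.symm (Ideal.Quotient.mk 𝔐 (algebraMap D B d)) = IsLocalRing.residue D d
    rw [RingEquiv.symm_apply_eq]
    rfl
  · ext x
    change e.symm (Ideal.Quotient.mk 𝔐 x) = 0 ↔ x ∈ 𝔐
    rw [map_eq_zero_iff _ e.symm.injective, Ideal.Quotient.eq_zero_iff_mem]

end Fermat.Agent.S36.R.DC
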