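import Fermat.Agent.S36.R.DC.Defs

/-!
# S36 / R / DC / Trace : step (1).   TASK S36/DC-Trace

`f ∈ rad B ϖ` ⟹ `ϖ ∣ trace D B f`.

PROOF.  `f ^ m = algebraMap ϖ * y`.  `A := Algebra.leftMulMatrix b f`, `Algebra.trace_eq_matrix_trace b f : trace f = A.trace`.
`Algebra.leftMulMatrix b` is an algebra hom, so `A ^ m = ϖ • leftMulMatrix b y`.  Map the matrices to the field
`k := D ⧸ span {ϖ}` (or `IsLocalRing.ResidueField D`) with `RingHom.mapMatrix`: `(A.map res) ^ m = 0`, so
`Matrix.isNilpotent_trace_of_isNilpotent` + reducedness of `k` give `res (A.trace) = 0`, i.e. `ϖ ∣ A.trace`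
(`Ideal.Quotient.eq_zero_iff_mem`, `Ideal.mem_span_singleton`).  Only `Prime ϖ` is used.
-/

set_option autoImplicit false

namespace Fermat.Agent.S36.R.DC

variable {D B : Type*} [CommRing D] [IsDomain D] [CommRing B] [Algebra D B]
  {ι : Type*} [Fintype ι] [DecidableEq ι]

theorem dvd_trace_of_mem_rad (b : Module.Basis ι D B) {ϖ : D} (hϖ : Prime ϖ) {f : B}
    (hf : f ∈ rad B ϖ) : ϖ ∣ Algebra.trace D B f := by
  obtain ⟨m, y, hy⟩ := mem_rad_iff_pow.1 hf
  have hprime : (Ideal.span {ϖ}).IsPrime := (Ideal.span_singleton_prime hϖ.ne_zero).2 hϖ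
  set res : D →+* D ⧸ Ideal.span {ϖ} := Ideal.Quotient.mk _ with hres
  have hresϖ : res ϖ = 0 := Ideal.Quotient.eq_zero_iff_mem.2 (Ideal.mem_span_singleton_self _)
  set A := Algebra.leftMulMatrix b f with hA
  have h1 : A ^ m = ϖ • Algebra.leftMulMatrix b y := by
    rw [hA, ← map_pow, hy, ← Algebra.smul_def, map_smul]
  have h2 : (res.mapMatrix A) ^ m = 0 := by
    rw [← map_pow, h1]
    ext i j
    simp [hresϖ]
  have h3 : IsNilpotent (res.mapMatrix A).trace :=
    Matrix.isNilpotent_trace_of_isNilpotent ⟨m, h2⟩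
  have h4 : (res.mapMatrix A).trace = 0 := h3.eq_zero
  have h5 : res A.trace = 0 := by
    rw [← h4, RingHom.mapMatrix_apply, AddMonoidHom.map_trace]
  rw [Algebra.trace_eq_matrix_trace b f]
  exact Ideal.mem_span_singleton.1 (Ideal.Quotient.eq_zero_iff_mem.1 h5)

end Fermat.Agent.S36.R.DC
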